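import Fermat.Agent.S17.H740.SegreLift
import Mathlib.Algebra.MvPolynomial.Funext
import Mathlib.RingTheory.MvPolynomial.Homogeneous
import Mathlib.RingTheory.GradedAlgebra.Homogeneous.Ideal
import Mathlib.Algebra.Polynomial.Roots

/-!
# Functional multihomogeneity ⟹ formal multihomogeneity (over an infinite field)

* `coeff_aeval_scale` : coefficients of `q (c_s X_s)`;
* `isMultiHom_of_forall_eval` : if `q (c_{s.1} y_s) = (∏ l, c l ^ N) q (y)` for all points `y` and
  all scalings `c` of the slots (an infinite field), then every monomial of `q` has degree `N` in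
  each slot (`IsMultiHom q fun _ => N`).
-/

set_option autoImplicit false

noncomputable section

namespace Fermat.Agent.S17.H740

open MvPolynomial

section Scale

variable {K : Type*} [CommSemiring K] {σ : Type*}

theorem aeval_scale_monomial (c : σ → K) (e : σ →₀ ℕ) (a : K) :
    aeval (fun s => C (c s) * X s) (monomial e a) =
      monomial e ((e.prod fun s k => c s ^ k) * a) := by
  rw [aeval_monomial]
  simp only [Finsupp.prod, mul_pow, Finset.prod_mul_distrib, ← C_pow, ← map_prod]
  rw [algebraMap_eq, ← mul_assoc, ← C_mul, mul_comm a, monomial_eq (a := _ * a)]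
  simp [Finsupp.prod]

theorem coeff_aeval_scale (c : σ → K) (q : MvPolynomial σ K) (e : σ →₀ ℕ) :
    coeff e (aeval (fun s => C (c s) * X s) q) = (e.prod fun s k => c s ^ k) * coeff e q := by
  classical
  induction q using MvPolynomial.induction_on' with
  | monomial e' a =>
    rw [aeval_scale_monomial, coeff_monomial, coeff_monomial]
    split_ifs with h
    · rw [h]
    · rw [mul_zero]
  | add p q hp hq =>
    rw [map_add, coeff_add, coeff_add, hp, hq, mul_add]

theorem eval_aeval_scale (c : σ → K) (q : MvPolynomial σ K) (x : σ → K) :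
    eval x (aeval (fun s => C (c s) * X s) q) = eval (fun s => c s * x s) q := by
  induction q using MvPolynomial.induction_on with
  | C a => simp
  | add p q hp hq => rw [map_add, map_add, map_add, hp, hq]
  | mul_X p s hp => rw [map_mul, map_mul, map_mul, hp, aeval_X, eval_X, map_mul, eval_C, eval_X]

end Scale

section Pow

variable {K : Type*} [Field K] [Infinite K]

theorem eq_of_forall_pow_eq {m n : ℕ} (h : ∀ t : K, t ^ m = t ^ n) : m = n := by
  have h1 : (Polynomial.X ^ m : Polynomial K) = Polynomial.X ^ n :=
    Polynomial.funext (by simpa using h)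
  simpa using congrArg Polynomial.natDegree h1

end Pow

section Main

variable {K : Type*} [Field K] [Infinite K] {α : Type*} [Fintype α] [DecidableEq α]
variable {ι : α → Type*}

/-- **Functional multihomogeneity implies formal multihomogeneity** over an infinite field. -/
theorem isMultiHom_of_forall_eval {N : ℕ} (q : MvPolynomial (Σ a, ι a) K)
    (h : ∀ (y : (a : α) → ι a → K) (c : α → K),
      eval (fun s : Σ a, ι a => c s.1 * y s.1 s.2) q = (∏ l, c l ^ N) * eval (sigmaPt y) q) :
    IsMultiHom q (fun _ => N) := by
  classical
  intro e he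
  funext a
  rw [weight_slotW_apply]
  refine eq_of_forall_pow_eq (K := K) fun t => ?_
  set c : α → K := fun l => if l = a then t else 1 with hc
  have h1 : aeval (fun s : Σ a, ι a => C (c s.1) * X s) q = C (∏ l, c l ^ N) * q := by
    refine MvPolynomial.funext fun x => ?_
    rw [eval_aeval_scale, map_mul, eval_C]
    exact h (fun a i => x ⟨a, i⟩) c
  have h2 := congrArg (coeff e) h1
  rw [coeff_aeval_scale, coeff_C_mul] at h2
  have h3 := mul_right_cancel₀ he h2
  have h4 : (e.prod fun s k => c s.1 ^ k) =
      t ^ ∑ s ∈ e.support, if s.1 = a then e s else 0 := by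
    rw [Finsupp.prod, ← Finset.prod_pow_eq_pow_sum]
    refine Finset.prod_congr rfl fun s _ => ?_
    simp only [hc]
    split_ifs <;> simp
  have h5 : (∏ l, c l ^ N) = t ^ N := by
    simp only [hc, ite_pow, one_pow]
    rw [Finset.prod_ite_eq' Finset.univ a (fun _ => t ^ N)]
    simp
  rw [h4, h5] at h3
  exact h3

end Main

section Span

variable {k : Type*} [Field k] {ι : Type*}

attribute [local instance] MvPolynomial.gradedAlgebra

/-- The ideal generated by homogeneous polynomials is closed under homogeneous components. -/
theorem homogeneousComponent_mem_span {rel : Set (MvPolynomial ι k)}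
    (h : ∀ G ∈ rel, ∃ e : ℕ, G.IsHomogeneous e) {f : MvPolynomial ι k}
    (hf : f ∈ Ideal.span rel) (n : ℕ) : homogeneousComponent n f ∈ Ideal.span rel := by
  have hI : (Ideal.span rel).IsHomogeneous (homogeneousSubmodule ι k) :=
    Ideal.homogeneous_span _ _ (fun G hG => by
      obtain ⟨e, he⟩ := h G hG
      exact ⟨e, he⟩)
  exact (mem_iff_homogeneousComponent_mem hI f).mp hf n

end Span

end Fermat.Agent.S17.H740
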