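import Fermat.Agent.S17.H740.SegreCert
import Fermat.Agent.S17.H380.AbsNullCert
import Fermat.Agent.S17.H380.AbsSegre

/-!
# Multi-slot Nullstellensatz bound for the ABSOLUTE height (leaf SEGRE, ABS form)

Foundation: helper380's `absLogHeight` (absolute logarithmic Weil height of a tuple of algebraic
numbers in any field `A` of characteristic zero).

* `aeval_segrePt_eq_zero_of_mem_segreIdeal` : DESCENT.  The Segre ideal `segreIdeal L I` is the
  vanishing ideal of the `L`-points (`L` algebraically closed) of the Segre image of the product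
  of the cones of the `I a`; it also vanishes at the ALGEBRAIC `A`-points of that product, for
  every field `A` over `k` (no map between `A` and `L` needed).
* `absLogHeight_multi_eval_ge_on` : `p j` multihomogeneous of multidegree `(N, …, N)` over a number
  field `K₀`, without common zero on the product of the punctured cones of the `I a` ⟹
  `C + N * ∑ a, absLogHeight (u a) ≤ absLogHeight (p j (u))_j` for all algebraic points `u` of the
  product of the cones with all `u a ≠ 0`.
* `absLogHeight_multi_eval_le`, `abs_absLogHeight_multi_eval_sub_le_on` : upper and two-sided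
  bound.
-/

set_option autoImplicit false
set_option linter.unusedSectionVars false

noncomputable section

namespace Fermat.Agent.S17.H740

open MvPolynomial
open Fermat.Agent.S17.H500 (HomIdeal)
open Fermat.Agent.S17.H380 (absLogHeight)

section Transfer

variable {k : Type*} [Field k] {α : Type*} [Fintype α] {ι : α → Type*}
variable {A : Type*} [Field A] [Algebra k A]

omit [Fintype α] in
theorem coe_aeval_intermediateField {σ : Type*} (E : IntermediateField k A) (x : σ → E)
    (f : MvPolynomial σ k) : ((aeval x f : E) : A) = aeval (fun s => (x s : A)) f :=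
  comp_aeval_apply (f := x) (IntermediateField.val E) f

/-- **Descent.**  The Segre ideal (defined through `L`-points) vanishes at the Segre image of
every ALGEBRAIC `A`-point of the product of the cones. -/
theorem aeval_segrePt_eq_zero_of_mem_segreIdeal (L : Type*) [Field L] [Algebra k L]
    [IsAlgClosed L] {I : ∀ a, Ideal (MvPolynomial (ι a) k)} {u : (a : α) → ι a → A}
    (halg : ∀ a i, IsIntegral k (u a i)) (hu : ∀ a, ∀ f ∈ I a, aeval (u a) f = 0)
    {P : MvPolynomial ((a : α) → ι a) k} (hP : P ∈ segreIdeal L I) :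
    aeval (segrePt u) P = 0 := by
  classical
  let E : IntermediateField k A := IntermediateField.adjoin k (Set.range (sigmaPt u))
  have hEalg : Algebra.IsAlgebraic k E :=
    IntermediateField.isAlgebraic_adjoin (by
      rintro x ⟨s, rfl⟩
      exact halg s.1 s.2)
  let φ : E →ₐ[k] L := IsAlgClosed.lift
  let w : (a : α) → ι a → E := fun a i =>
    ⟨u a i, IntermediateField.subset_adjoin k _ ⟨⟨a, i⟩, rfl⟩⟩
  have hw : InCones L I (fun a i => φ (w a i)) := by
    intro a f hf
    have h1 : aeval (fun i => φ (w a i)) f = φ (aeval (w a) f) :=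
      (comp_aeval_apply (f := w a) φ f).symm
    have h2 : aeval (w a) f = 0 := by
      apply Subtype.ext
      rw [coe_aeval_intermediateField]
      exact hu a f hf
    rw [h1, h2, map_zero]
  have h3 := hP _ hw
  have h4 : segrePt (fun a i => φ (w a i)) = fun f => φ (segrePt w f) := by
    funext f
    simp only [segrePt, map_prod]
  rw [h4, ← comp_aeval_apply (f := segrePt w) φ P] at h3
  have h5 : aeval (segrePt w) P = 0 := (map_eq_zero φ).mp h3
  have h6 : (fun f => ((segrePt w f : E) : A)) = segrePt u := by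
    funext f
    simp only [segrePt]
    push_cast
    rfl
  rw [← h6, ← coe_aeval_intermediateField, h5]
  rfl

end Transfer

section Abs

universe u v

variable {K₀ A : Type*} [Field K₀] [NumberField K₀] [Field A] [CharZero A] [Algebra K₀ A]
variable {α : Type u} [Fintype α] {ι : α → Type v} {ι' : Type*}

theorem isIntegral_base_of_rat {x : A} (hx : IsIntegral ℚ x) : IsIntegral K₀ x :=
  hx.tower_top

theorem isIntegral_segrePt {u : (a : α) → ι a → A} (hu : ∀ a i, IsIntegral ℚ (u a i))
    (f : (a : α) → ι a) : IsIntegral ℚ (segrePt u f) := by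
  simp only [segrePt]
  exact IsIntegral.prod _ fun a _ => hu a (f a)

theorem segrePt_ne_zero' {u : (a : α) → ι a → A} (hu : ∀ a, u a ≠ 0) : segrePt u ≠ 0 := by
  have hex : ∀ a, ∃ i : ι a, u a i ≠ 0 := fun a => by
    by_contra h
    exact hu a (funext fun j => by_contra fun hj => h ⟨j, hj⟩)
  choose f hf using hex
  intro h
  have := congrFun h f
  simp only [segrePt, Pi.zero_apply] at this
  exact (Finset.prod_ne_zero_iff.mpr fun a _ => hf a) this

/-- **Absolute height, lower bound for multihomogeneous maps without common zero on a product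
of cones.** -/
theorem absLogHeight_multi_eval_ge_on [Nonempty α] [∀ a, Finite (ι a)] [Fintype ι']
    (L : Type*) [Field L] [Algebra K₀ L] [IsAlgClosed L]
    (I : ∀ a, Ideal (MvPolynomial (ι a) K₀)) (hI : ∀ a, HomIdeal (I a)) {N : ℕ}
    (p : ι' → MvPolynomial (Σ a, ι a) K₀)
    (hp : ∀ j, ∃ P : MvPolynomial ((a : α) → ι a) K₀, P.IsHomogeneous N ∧ segreSubst K₀ P = p j)
    (h0 : ∀ u : (a : α) → ι a → L, InCones L I u → (∀ j, aeval (sigmaPt u) (p j) = 0) →
      ∃ a, u a = 0) :
    ∃ C : ℝ, ∀ u : (a : α) → ι a → A, (∀ a i, IsIntegral ℚ (u a i)) →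
      (∀ a, ∀ f ∈ I a, aeval (u a) f = 0) → (∀ a, u a ≠ 0) →
      C + N * ∑ a, absLogHeight (u a) ≤ absLogHeight (fun j => aeval (sigmaPt u) (p j)) := by
  classical
  choose P hPhom hPp using hp
  obtain ⟨C, hC⟩ := H380.absLogHeight_eval_ge_on (A := A) L (segreIdeal L I)
    (homIdeal_segreIdeal hI) P hPhom (by
      intro z hzJ hzP
      by_contra hz0
      obtain ⟨u, rfl⟩ := exists_segrePt_eq hzJ hz0
      have hu0 : ∀ a, u a ≠ 0 := fun a h => hz0 (segrePt_eq_zero_of h)
      have hu := inCones_of_segrePt hI hu0 hzJ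
      obtain ⟨a, ha⟩ := h0 u hu (fun j => by
        rw [← hPp j, aeval_sigmaPt_segreSubst]; exact hzP j)
      exact hu0 a ha)
  refine ⟨C, fun u hint hu hu0 => ?_⟩
  have h1 := hC (segrePt u) (isIntegral_segrePt hint) (fun f hf =>
    aeval_segrePt_eq_zero_of_mem_segreIdeal L (fun a i => isIntegral_base_of_rat (hint a i)) hu hf)
  have h2 : absLogHeight (segrePt u) = ∑ a, absLogHeight (u a) :=
    H380.absLogHeight_fun_prod_eq hint hu0
  rw [h2] at h1
  have h3 : (fun j => aeval (segrePt u) (P j)) = fun j => aeval (sigmaPt u) (p j) := by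
    funext j
    rw [← hPp j, aeval_sigmaPt_segreSubst]
  rwa [h3] at h1

/-- **Absolute height, upper bound for multihomogeneous maps of multidegree `(N, …, N)`.** -/
theorem absLogHeight_multi_eval_le [∀ a, Finite (ι a)] [Finite ι'] {N : ℕ}
    (p : ι' → MvPolynomial (Σ a, ι a) K₀)
    (hp : ∀ j, ∃ P : MvPolynomial ((a : α) → ι a) K₀, P.IsHomogeneous N ∧ segreSubst K₀ P = p j) :
    ∃ C : ℝ, ∀ u : (a : α) → ι a → A, (∀ a i, IsIntegral ℚ (u a i)) → (∀ a, u a ≠ 0) →
      absLogHeight (fun j => aeval (sigmaPt u) (p j)) ≤ C + N * ∑ a, absLogHeight (u a) := by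
  classical
  choose P hPhom hPp using hp
  refine ⟨(Module.finrank ℚ K₀ : ℝ)⁻¹ * Real.log (max (Height.mulHeightBound P) 1),
    fun u hint hu0 => ?_⟩
  have h1 := H380.absLogHeight_eval_le hPhom (segrePt u) (isIntegral_segrePt hint)
  have h2 : absLogHeight (segrePt u) = ∑ a, absLogHeight (u a) :=
    H380.absLogHeight_fun_prod_eq hint hu0
  rw [h2] at h1
  have h3 : (fun j => aeval (segrePt u) (P j)) = fun j => aeval (sigmaPt u) (p j) := by
    funext j
    rw [← hPp j, aeval_sigmaPt_segreSubst]
  rwa [h3] at h1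

/-- Two-sided bound for the absolute height on a product of cones. -/
theorem abs_absLogHeight_multi_eval_sub_le_on [Nonempty α] [∀ a, Finite (ι a)] [Fintype ι']
    (L : Type*) [Field L] [Algebra K₀ L] [IsAlgClosed L]
    (I : ∀ a, Ideal (MvPolynomial (ι a) K₀)) (hI : ∀ a, HomIdeal (I a)) {N : ℕ}
    (p : ι' → MvPolynomial (Σ a, ι a) K₀)
    (hp : ∀ j, ∃ P : MvPolynomial ((a : α) → ι a) K₀, P.IsHomogeneous N ∧ segreSubst K₀ P = p j)
    (h0 : ∀ u : (a : α) → ι a → L, InCones L I u → (∀ j, aeval (sigmaPt u) (p j) = 0) →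
      ∃ a, u a = 0) :
    ∃ C : ℝ, ∀ u : (a : α) → ι a → A, (∀ a i, IsIntegral ℚ (u a i)) →
      (∀ a, ∀ f ∈ I a, aeval (u a) f = 0) → (∀ a, u a ≠ 0) →
      |absLogHeight (fun j => aeval (sigmaPt u) (p j)) - N * ∑ a, absLogHeight (u a)| ≤ C := by
  obtain ⟨C₁, hC₁⟩ := absLogHeight_multi_eval_le (A := A) p hp
  obtain ⟨C₂, hC₂⟩ := absLogHeight_multi_eval_ge_on (A := A) L I hI p hp h0
  refine ⟨max C₁ (-C₂), fun u hint hu hu0 => abs_sub_le_iff.mpr ⟨?_, ?_⟩⟩
  · have := hC₁ u hint hu0
    have h2 := le_max_left C₁ (-C₂)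
    linarith
  · have := hC₂ u hint hu hu0
    have h2 := le_max_right C₁ (-C₂)
    linarith

end Abs

end Fermat.Agent.S17.H740
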