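import Fermat.Agent.S17.H710.Wall.Defs
import Fermat.Agent.S17.H740.SegreAbs
import Fermat.Agent.S17.H740.MultiHomFun

/-!
# Wall leaf A3: the multi-slot Nullstellensatz lower bound (absolute heights)

`multislot : Wall.MultislotStatement K` for `K` algebraically closed and algebraic over `ℚ`.

Proof.  (1) functional multihomogeneity gives formal multihomogeneity (`K` infinite), hence a
Segre lift `P j` (homogeneous of degree `N` in the Segre variables); (2) the ideal generated by
the homogeneous relations is closed under homogeneous components, so the Segre certificate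
`∑ j, Q (f, j) (z) * P j (z) = z f ^ (M + N)`, `z = segrePt y`, holds on the product of the cones
(`exists_segre_certificate_aeval`, over `K` itself); (3) the finitely many coefficients of the
`Q (f, j)` and `P j` lie in ONE number field `K₀ ⊆ K`; (4) `H380.absLogHeight_eval_ge` at the
tensor `segrePt y` and the exact Segre formula `H380.absLogHeight_fun_prod_eq`.
-/

set_option autoImplicit false
set_option linter.unusedSectionVars false

noncomputable section

namespace Fermat.Agent.S17.H740

open MvPolynomial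
open Fermat.Agent.S17.H500 (HomIdeal)
open Fermat.Agent.S17.H380 (absLogHeight)

theorem aeval_self_eq_eval {K σ : Type*} [CommSemiring K] (x : σ → K) (G : MvPolynomial σ K) :
    aeval x G = eval x G := rfl

section Descent

variable {K : Type*} [Field K] [CharZero K] [Algebra.IsAlgebraic ℚ K]

/-- Finitely many polynomials over a field `K` algebraic over `ℚ` are defined over ONE number
field `K₀ ⊆ K`. -/
theorem exists_numberField_descent {τ J : Type*} [Finite J] (Q : J → MvPolynomial τ K) :
    ∃ K₀ : IntermediateField ℚ K, NumberField K₀ ∧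
      ∀ j, ∃ Q₀ : MvPolynomial τ K₀, map (algebraMap K₀ K) Q₀ = Q j := by
  classical
  set S : Set K := ⋃ j, ((Q j).coeffs : Set K) with hS
  have hfin : Finite S := by
    have : S.Finite := Set.finite_iUnion fun j => (Q j).coeffs.finite_toSet
    exact this.to_subtype
  set K₀ : IntermediateField ℚ K := IntermediateField.adjoin ℚ S with hK₀
  have hfd : FiniteDimensional ℚ K₀ :=
    IntermediateField.finiteDimensional_adjoin
      (fun x _ => (Algebra.IsAlgebraic.isAlgebraic (R := ℚ) x).isIntegral)
  refine ⟨K₀, { }, fun j => ?_⟩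
  have h1 : ((Q j).coeffs : Set K) ⊆ Set.range (algebraMap K₀ K) := by
    intro c hc
    have hcS : c ∈ S := Set.mem_iUnion.mpr ⟨j, hc⟩
    exact ⟨⟨c, IntermediateField.subset_adjoin ℚ S hcS⟩, rfl⟩
  obtain ⟨Q₀, hQ₀⟩ := mem_range_map_iff_coeffs_subset.mpr h1
  exact ⟨Q₀, hQ₀⟩

end Descent

section Core

universe u v

variable {K : Type*} [Field K] [CharZero K] [IsAlgClosed K] [Algebra.IsAlgebraic ℚ K]
variable {α : Type u} [Fintype α] {ι : α → Type v} {ι' : Type*}

/-- **Multi-slot Nullstellensatz lower bound over `K = ℚ̄`** (polynomials and relations with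
coefficients in `K`). -/
theorem absLogHeight_multi_eval_ge_closed [Nonempty α] [∀ a, Finite (ι a)] [Fintype ι']
    (I : ∀ a, Ideal (MvPolynomial (ι a) K)) (hI : ∀ a, HomIdeal (I a)) {N : ℕ}
    (p : ι' → MvPolynomial (Σ a, ι a) K)
    (hp : ∀ j, ∃ P : MvPolynomial ((a : α) → ι a) K, P.IsHomogeneous N ∧ segreSubst K P = p j)
    (h0 : ∀ u : (a : α) → ι a → K, InCones K I u → (∀ j, aeval (sigmaPt u) (p j) = 0) →
      ∃ a, u a = 0) :
    ∃ C : ℝ, ∀ u : (a : α) → ι a → K, InCones K I u → (∀ a, u a ≠ 0) →
      C + N * ∑ a, absLogHeight (u a) ≤ absLogHeight (fun j => eval (sigmaPt u) (p j)) := by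
  classical
  obtain ⟨M, Q, P, hQ, hP, -, hPeval, hcert⟩ := exists_segre_certificate_aeval K I hI p hp h0
  obtain ⟨K₀, hNF, hdesc⟩ := exists_numberField_descent (Sum.elim Q P)
  have hQd : ∀ c, ∃ Q₀ : MvPolynomial ((a : α) → ι a) K₀, map (algebraMap K₀ K) Q₀ = Q c :=
    fun c => hdesc (Sum.inl c)
  have hPd : ∀ j, ∃ P₀ : MvPolynomial ((a : α) → ι a) K₀, map (algebraMap K₀ K) P₀ = P j :=
    fun j => hdesc (Sum.inr j)
  choose Q₀ hQ₀ using hQd
  choose P₀ hP₀ using hPd
  have hinj : Function.Injective (algebraMap K₀ K) := (algebraMap K₀ K).injective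
  have hQ₀hom : ∀ c, (Q₀ c).IsHomogeneous M := fun c =>
    IsHomogeneous.of_map hinj (by rw [hQ₀]; exact hQ c)
  have hint : ∀ x : K, IsIntegral ℚ x := fun x =>
    (Algebra.IsAlgebraic.isAlgebraic (R := ℚ) x).isIntegral
  have haev : ∀ (x : ((a : α) → ι a) → K) (G₀ : MvPolynomial ((a : α) → ι a) K₀),
      aeval x G₀ = eval x (map (algebraMap K₀ K) G₀) := by
    intro x G₀
    rw [eval_map, aeval_def]
  refine ⟨-(Real.log (Nat.card ι') +
    (Module.finrank ℚ K₀ : ℝ)⁻¹ * Real.log (max (Height.mulHeightBound Q₀) 1)),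
    fun u hu hu0 => ?_⟩
  have h1 := H380.absLogHeight_eval_ge (K₀ := K₀) (A := K) (N := N) hQ₀hom P₀
    (x := segrePt u) (fun f => hint _) (fun f => by
      have := hcert u hu f
      simp only [haev, hQ₀, hP₀]
      simpa only [aeval_self_eq_eval] using this)
  have h2 : absLogHeight (segrePt u) = ∑ a, absLogHeight (u a) :=
    H380.absLogHeight_fun_prod_eq (fun a i => hint _) hu0
  rw [h2] at h1
  have h3 : (fun j => aeval (segrePt u) (P₀ j)) = fun j => eval (sigmaPt u) (p j) := by
    funext j
    rw [haev, hP₀]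
    have := hPeval u j
    simpa only [aeval_self_eq_eval] using this
  rwa [h3] at h1

end Core

section Wall

variable (K : Type*) [Field K] [CharZero K] [IsAlgClosed K] [Algebra.IsAlgebraic ℚ K]

/-- the reindexing `Fin d × Fin n ≃ Σ _ : Fin d, Fin n` of the variables -/
def prodToSigma (d n : ℕ) : Fin d × Fin n → (Σ _ : Fin d, Fin n) := fun q => ⟨q.1, q.2⟩

theorem eval_rename_prodToSigma {d n : ℕ} (p : MvPolynomial (Fin d × Fin n) K)
    (y : Fin d → Fin n → K) :
    eval (sigmaPt y) (rename (prodToSigma d n) p) = eval (fun q : Fin d × Fin n => y q.1 q.2) p := by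
  rw [eval_rename]
  rfl

/-- **Wall leaf A3.** -/
theorem multislot : Wall.MultislotStatement K := by
  classical
  intro n d ι' _ rel hrel p N hp h0
  rcases Nat.eq_zero_or_pos d with hd | hd
  · subst hd
    refine ⟨0, fun y _ _ => ?_⟩
    simp only [Finset.univ_eq_empty, Finset.sum_empty, mul_zero, add_zero]
    exact H380.absLogHeight_nonneg _
  have : Nonempty (Fin d) := ⟨⟨0, hd⟩⟩
  have : Infinite K := IsAlgClosed.instInfinite
  -- the renamed polynomials
  set p' : ι' → MvPolynomial (Σ _ : Fin d, Fin n) K := fun j => rename (prodToSigma d n) (p j)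
    with hp'
  have hp'hom : ∀ j, IsMultiHom (p' j) (fun _ => N) := by
    intro j
    refine isMultiHom_of_forall_eval (p' j) fun y c => ?_
    have h1 := hp j y c
    have h2 : eval (fun s : (Σ _ : Fin d, Fin n) => c s.1 * y s.1 s.2) (p' j) =
        eval (fun q : Fin d × Fin n => c q.1 * y q.1 q.2) (p j) := by
      rw [hp', eval_rename]
      rfl
    rw [h2, h1, hp', eval_rename_prodToSigma]
  have hlift : ∀ j, ∃ P : MvPolynomial ((_ : Fin d) → Fin n) K,
      P.IsHomogeneous N ∧ segreSubst K P = p' j := fun j => exists_segre_lift (hp'hom j)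
  -- the ideal of the relations
  set I : ∀ _ : Fin d, Ideal (MvPolynomial (Fin n) K) := fun _ => Ideal.span rel with hIdef
  have hI : ∀ a, HomIdeal (I a) := fun a f hf m => homogeneousComponent_mem_span hrel hf m
  have hcone : ∀ y : Fin n → K, (∀ G ∈ rel, eval y G = 0) ↔
      ∀ f ∈ Ideal.span rel, aeval y f = 0 := by
    intro y
    constructor
    · intro h f hf
      have hle : Ideal.span rel ≤ RingHom.ker (aeval y : MvPolynomial (Fin n) K →ₐ[K] K) := by
        rw [Ideal.span_le]
        intro G hG
        have := h G hG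
        rw [SetLike.mem_coe, RingHom.mem_ker]
        exact this
      exact hle hf
    · intro h G hG
      exact h G (Ideal.subset_span hG)
  have hInC : ∀ y : Fin d → Fin n → K, InCones K I y ↔ ∀ l, ∀ G ∈ rel, eval (y l) G = 0 := by
    intro y
    constructor
    · intro h l
      exact (hcone (y l)).mpr (h l)
    · intro h l
      exact (hcone (y l)).mp (h l)
  obtain ⟨C, hC⟩ := absLogHeight_multi_eval_ge_closed (K := K) I hI p' hlift (by
    intro u hu hz
    by_contra hne
    obtain ⟨j, hj⟩ := h0 u (fun a h => hne ⟨a, h⟩) ((hInC u).mp hu)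
    apply hj
    have := hz j
    rw [aeval_self_eq_eval, hp', eval_rename_prodToSigma] at this
    exact this)
  refine ⟨-C, fun y hy0 hy => ?_⟩
  have h1 := hC y ((hInC y).mpr hy) hy0
  have h2 : (fun j => eval (sigmaPt y) (p' j)) =
      fun j => eval (fun q : Fin d × Fin n => y q.1 q.2) (p j) := by
    funext j
    rw [hp', eval_rename_prodToSigma]
  rw [h2] at h1
  show (N : ℝ) * ∑ l, absLogHeight (y l) ≤
    absLogHeight (fun j => eval (fun q : Fin d × Fin n => y q.1 q.2) (p j)) + -C
  linarith

end Wall

end Fermat.Agent.S17.H740
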