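import Fermat.Agent.S17.H740.SegreCone

/-!
# Multi-projective Nullstellensatz certificates and height bounds (leaf SEGRE of S17/H)

Slots `a : α` with variables `ι a` and homogeneous ideals `I a`; `p j` multihomogeneous of
multidegree `(N, …, N)` in the variables `Σ a, ι a`, without common zero on the product of the
punctured cones of the `I a` (checked over an algebraically closed extension `L`).

* `exists_segre_certificate` : there are `M` and homogeneous `Q (f, j)` of degree `M` in the
  Segre variables with `∑ j, Q (f, j)(z) * p j (u) = z f ^ (M + N)`, `z = segrePt u`, for every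
  `L`-point `u` of the product of the cones;
* `exists_segre_certificate_eval` : the same at `k`-points, together with Segre lifts `P j` of
  the `p j` (`eval (segrePt u) (P j) = eval (sigmaPt u) (p j)`), i.e. exactly the hypothesis of
  Mathlib's `Height.logHeight_eval_ge`;
* `logHeight_multi_eval_ge`, `logHeight_multi_eval_le`, `abs_logHeight_multi_eval_sub_le` :
  `|logHeight (p j (u))_j - N * ∑ a, logHeight (u a)| ≤ C` on the product of the cones
  (all `u a ≠ 0`).
-/

set_option autoImplicit false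

noncomputable section

namespace Fermat.Agent.S17.H740

open MvPolynomial
open Fermat.Agent.S17.H500 (HomIdeal)

variable {k : Type*} [Field k] {α : Type*} [Fintype α] {ι : α → Type*} {ι' : Type*}

theorem segrePt_eq_zero_of {R : Type*} [CommMonoidWithZero R] {u : (a : α) → ι a → R} {a : α}
    (h : u a = 0) : segrePt u = 0 := by
  funext f
  simp only [segrePt, Pi.zero_apply]
  exact Finset.prod_eq_zero (Finset.mem_univ a) (by rw [h]; rfl)

/-- **Multi-projective Nullstellensatz certificate** (evaluated at the `L`-points). -/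
theorem exists_segre_certificate [Nonempty α] [∀ a, Finite (ι a)] [Fintype ι']
    (L : Type*) [Field L] [Algebra k L] [IsAlgClosed L]
    (I : ∀ a, Ideal (MvPolynomial (ι a) k)) (hI : ∀ a, HomIdeal (I a)) {N : ℕ}
    (p : ι' → MvPolynomial (Σ a, ι a) k)
    (hp : ∀ j, ∃ P : MvPolynomial ((a : α) → ι a) k, P.IsHomogeneous N ∧ segreSubst k P = p j)
    (h0 : ∀ u : (a : α) → ι a → L, InCones L I u → (∀ j, aeval (sigmaPt u) (p j) = 0) →
      ∃ a, u a = 0) :
    ∃ (M : ℕ) (Q : ((a : α) → ι a) × ι' → MvPolynomial ((a : α) → ι a) k),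
      (∀ c, (Q c).IsHomogeneous M) ∧
      ∀ u : (a : α) → ι a → L, InCones L I u → ∀ f,
        ∑ j, aeval (segrePt u) (Q (f, j)) * aeval (sigmaPt u) (p j) = segrePt u f ^ (M + N) := by
  classical
  choose P hPhom hPp using hp
  have hcert := H500.exists_certificate L (segreIdeal L I) (homIdeal_segreIdeal hI) P hPhom (by
    intro z hzJ hzP
    by_contra hz0
    obtain ⟨u, rfl⟩ := exists_segrePt_eq hzJ hz0
    have hu0 : ∀ a, u a ≠ 0 := fun a h => hz0 (segrePt_eq_zero_of h)
    have hu := inCones_of_segrePt hI hu0 hzJ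
    obtain ⟨a, ha⟩ := h0 u hu (fun j => by
      rw [← hPp j, aeval_sigmaPt_segreSubst]; exact hzP j)
    exact hu0 a ha)
  obtain ⟨M, Q, hQ, hQJ⟩ := hcert
  refine ⟨M, Q, hQ, fun u hu f => ?_⟩
  have := hQJ f u hu
  rw [map_sub, map_sum, map_pow, aeval_X, sub_eq_zero] at this
  rw [← this]
  refine Finset.sum_congr rfl fun j _ => ?_
  rw [map_mul, ← hPp j, aeval_sigmaPt_segreSubst]

/-- Version of `exists_segre_certificate` whose hypothesis is multihomogeneity. -/
theorem exists_segre_certificate' [DecidableEq α] [Nonempty α] [∀ a, Finite (ι a)] [Fintype ι']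
    (L : Type*) [Field L] [Algebra k L] [IsAlgClosed L]
    (I : ∀ a, Ideal (MvPolynomial (ι a) k)) (hI : ∀ a, HomIdeal (I a)) {N : ℕ}
    (p : ι' → MvPolynomial (Σ a, ι a) k) (hp : ∀ j, IsMultiHom (p j) (fun _ => N))
    (h0 : ∀ u : (a : α) → ι a → L, InCones L I u → (∀ j, aeval (sigmaPt u) (p j) = 0) →
      ∃ a, u a = 0) :
    ∃ (M : ℕ) (Q : ((a : α) → ι a) × ι' → MvPolynomial ((a : α) → ι a) k),
      (∀ c, (Q c).IsHomogeneous M) ∧
      ∀ u : (a : α) → ι a → L, InCones L I u → ∀ f,
        ∑ j, aeval (segrePt u) (Q (f, j)) * aeval (sigmaPt u) (p j) = segrePt u f ^ (M + N) :=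
  exists_segre_certificate L I hI p (fun j => exists_segre_lift (hp j)) h0

section KPoints

variable (L : Type*) [Field L] [Algebra k L]

theorem aeval_algebraMap_comp {σ : Type*} (v : σ → k) (f : MvPolynomial σ k) :
    aeval (fun i => algebraMap k L (v i)) f = algebraMap k L (eval v f) := by
  have := comp_aeval_apply (f := v) (Algebra.ofId k L) f
  simpa [Algebra.ofId_apply] using this.symm

omit [Fintype α] in
theorem inCones_algebraMap {I : ∀ a, Ideal (MvPolynomial (ι a) k)} {u : (a : α) → ι a → k}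
    (hu : ∀ a, ∀ f ∈ I a, eval (u a) f = 0) :
    InCones L I (fun a j => algebraMap k L (u a j)) := by
  intro a f hf
  rw [aeval_algebraMap_comp, hu a f hf, map_zero]

theorem segrePt_algebraMap (u : (a : α) → ι a → k) :
    segrePt (fun a j => algebraMap k L (u a j)) = fun f => algebraMap k L (segrePt u f) := by
  funext f
  simp [segrePt]

omit [Fintype α] in
theorem sigmaPt_algebraMap (u : (a : α) → ι a → k) :
    sigmaPt (fun a j => algebraMap k L (u a j)) = fun s => algebraMap k L (sigmaPt u s) := rfl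

end KPoints

/-- **Certificate at `k`-points**, in the exact shape of the hypothesis of
`Height.logHeight_eval_ge`: `P j` are Segre lifts of the `p j`. -/
theorem exists_segre_certificate_eval [Nonempty α] [∀ a, Finite (ι a)] [Fintype ι']
    (L : Type*) [Field L] [Algebra k L] [IsAlgClosed L]
    (I : ∀ a, Ideal (MvPolynomial (ι a) k)) (hI : ∀ a, HomIdeal (I a)) {N : ℕ}
    (p : ι' → MvPolynomial (Σ a, ι a) k)
    (hp : ∀ j, ∃ P : MvPolynomial ((a : α) → ι a) k, P.IsHomogeneous N ∧ segreSubst k P = p j)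
    (h0 : ∀ u : (a : α) → ι a → L, InCones L I u → (∀ j, aeval (sigmaPt u) (p j) = 0) →
      ∃ a, u a = 0) :
    ∃ (M : ℕ) (Q : ((a : α) → ι a) × ι' → MvPolynomial ((a : α) → ι a) k)
      (P : ι' → MvPolynomial ((a : α) → ι a) k),
      (∀ c, (Q c).IsHomogeneous M) ∧ (∀ j, (P j).IsHomogeneous N) ∧
      (∀ j, segreSubst k (P j) = p j) ∧
      (∀ (u : (a : α) → ι a → k) (j : ι'), eval (segrePt u) (P j) = eval (sigmaPt u) (p j)) ∧
      ∀ u : (a : α) → ι a → k, (∀ a, ∀ f ∈ I a, eval (u a) f = 0) → ∀ f,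
        ∑ j, eval (segrePt u) (Q (f, j)) * eval (segrePt u) (P j) = segrePt u f ^ (M + N) := by
  classical
  obtain ⟨M, Q, hQ, hcert⟩ := exists_segre_certificate L I hI p hp h0
  choose P hPhom hPp using hp
  have hPeval : ∀ (u : (a : α) → ι a → k) (j : ι'),
      eval (segrePt u) (P j) = eval (sigmaPt u) (p j) := by
    intro u j
    have := aeval_sigmaPt_segreSubst (k := k) (R := k) u (P j)
    rw [hPp j] at this
    simpa using this.symm
  refine ⟨M, Q, P, hQ, hPhom, hPp, hPeval, fun u hu f => ?_⟩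
  have h1 := hcert _ (inCones_algebraMap L hu) f
  rw [segrePt_algebraMap, sigmaPt_algebraMap] at h1
  simp only [aeval_algebraMap_comp] at h1
  rw [← map_pow] at h1
  simp only [← map_mul, ← map_sum] at h1
  have h2 := (algebraMap k L).injective h1
  rw [← h2]
  exact Finset.sum_congr rfl fun j _ => by rw [hPeval]

/-- **Certificate at `L`-points with Segre lifts**: the shape needed to feed a height lower
bound over `L` (e.g. an absolute height on `ℚ̄`) with polynomials defined over `k`. -/
theorem exists_segre_certificate_aeval [Nonempty α] [∀ a, Finite (ι a)] [Fintype ι']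
    (L : Type*) [Field L] [Algebra k L] [IsAlgClosed L]
    (I : ∀ a, Ideal (MvPolynomial (ι a) k)) (hI : ∀ a, HomIdeal (I a)) {N : ℕ}
    (p : ι' → MvPolynomial (Σ a, ι a) k)
    (hp : ∀ j, ∃ P : MvPolynomial ((a : α) → ι a) k, P.IsHomogeneous N ∧ segreSubst k P = p j)
    (h0 : ∀ u : (a : α) → ι a → L, InCones L I u → (∀ j, aeval (sigmaPt u) (p j) = 0) →
      ∃ a, u a = 0) :
    ∃ (M : ℕ) (Q : ((a : α) → ι a) × ι' → MvPolynomial ((a : α) → ι a) k)
      (P : ι' → MvPolynomial ((a : α) → ι a) k),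
      (∀ c, (Q c).IsHomogeneous M) ∧ (∀ j, (P j).IsHomogeneous N) ∧
      (∀ j, segreSubst k (P j) = p j) ∧
      (∀ (u : (a : α) → ι a → L) (j : ι'),
        aeval (segrePt u) (P j) = aeval (sigmaPt u) (p j)) ∧
      ∀ u : (a : α) → ι a → L, InCones L I u → ∀ f,
        ∑ j, aeval (segrePt u) (Q (f, j)) * aeval (segrePt u) (P j) = segrePt u f ^ (M + N) := by
  classical
  obtain ⟨M, Q, hQ, hcert⟩ := exists_segre_certificate L I hI p hp h0
  choose P hPhom hPp using hp
  have hPeval : ∀ (u : (a : α) → ι a → L) (j : ι'),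
      aeval (segrePt u) (P j) = aeval (sigmaPt u) (p j) := by
    intro u j
    rw [← hPp j, aeval_sigmaPt_segreSubst]
  refine ⟨M, Q, P, hQ, hPhom, hPp, hPeval, fun u hu f => ?_⟩
  rw [← hcert u hu f]
  exact Finset.sum_congr rfl fun j _ => by rw [hPeval]

/-! ### Height bounds -/

section Heights

variable [Height.AdmissibleAbsValues k]

/-- **Lower bound for multihomogeneous maps without common zero on a product of cones.** -/
theorem logHeight_multi_eval_ge [Nonempty α] [∀ a, Finite (ι a)] [Fintype ι']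
    (L : Type*) [Field L] [Algebra k L] [IsAlgClosed L]
    (I : ∀ a, Ideal (MvPolynomial (ι a) k)) (hI : ∀ a, HomIdeal (I a)) {N : ℕ}
    (p : ι' → MvPolynomial (Σ a, ι a) k)
    (hp : ∀ j, ∃ P : MvPolynomial ((a : α) → ι a) k, P.IsHomogeneous N ∧ segreSubst k P = p j)
    (h0 : ∀ u : (a : α) → ι a → L, InCones L I u → (∀ j, aeval (sigmaPt u) (p j) = 0) →
      ∃ a, u a = 0) :
    ∃ C : ℝ, ∀ u : (a : α) → ι a → k, (∀ a, ∀ f ∈ I a, eval (u a) f = 0) → (∀ a, u a ≠ 0) →
      C + N * ∑ a, Height.logHeight (u a) ≤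
        Height.logHeight (fun j => eval (sigmaPt u) (p j)) := by
  obtain ⟨M, Q, P, hQ, -, -, hPeval, hcert⟩ := exists_segre_certificate_eval L I hI p hp h0
  obtain ⟨C, hC⟩ := Height.logHeight_eval_ge' (K := k) (M := M) (N := N) hQ
  refine ⟨C, fun u hu hu0 => ?_⟩
  have h1 := hC P (x := segrePt u) (hcert u hu)
  have h2 : Height.logHeight (segrePt u) = ∑ a, Height.logHeight (u a) :=
    Height.logHeight_fun_prod_eq hu0
  rw [h2] at h1
  simpa only [hPeval] using h1

/-- **Upper bound for multihomogeneous maps of multidegree `(N, …, N)`.** -/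
theorem logHeight_multi_eval_le [∀ a, Finite (ι a)] [Fintype ι'] {N : ℕ}
    (p : ι' → MvPolynomial (Σ a, ι a) k)
    (hp : ∀ j, ∃ P : MvPolynomial ((a : α) → ι a) k, P.IsHomogeneous N ∧ segreSubst k P = p j) :
    ∃ C : ℝ, ∀ u : (a : α) → ι a → k, (∀ a, u a ≠ 0) →
      Height.logHeight (fun j => eval (sigmaPt u) (p j)) ≤
        C + N * ∑ a, Height.logHeight (u a) := by
  choose P hPhom hPp using hp
  obtain ⟨C, hC⟩ := Height.logHeight_eval_le' (K := k) hPhom
  refine ⟨C, fun u hu0 => ?_⟩
  have h1 := hC (segrePt u)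
  have h2 : Height.logHeight (segrePt u) = ∑ a, Height.logHeight (u a) :=
    Height.logHeight_fun_prod_eq hu0
  rw [h2] at h1
  have hPeval : ∀ j, eval (segrePt u) (P j) = eval (sigmaPt u) (p j) := by
    intro j
    have := aeval_sigmaPt_segreSubst (k := k) (R := k) u (P j)
    rw [hPp j] at this
    simpa using this.symm
  simpa only [hPeval] using h1

/-- Two-sided bound. -/
theorem abs_logHeight_multi_eval_sub_le [Nonempty α] [∀ a, Finite (ι a)] [Fintype ι']
    (L : Type*) [Field L] [Algebra k L] [IsAlgClosed L]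
    (I : ∀ a, Ideal (MvPolynomial (ι a) k)) (hI : ∀ a, HomIdeal (I a)) {N : ℕ}
    (p : ι' → MvPolynomial (Σ a, ι a) k)
    (hp : ∀ j, ∃ P : MvPolynomial ((a : α) → ι a) k, P.IsHomogeneous N ∧ segreSubst k P = p j)
    (h0 : ∀ u : (a : α) → ι a → L, InCones L I u → (∀ j, aeval (sigmaPt u) (p j) = 0) →
      ∃ a, u a = 0) :
    ∃ C : ℝ, ∀ u : (a : α) → ι a → k, (∀ a, ∀ f ∈ I a, eval (u a) f = 0) → (∀ a, u a ≠ 0) →
      |Height.logHeight (fun j => eval (sigmaPt u) (p j)) - N * ∑ a, Height.logHeight (u a)| ≤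
        C := by
  obtain ⟨C₁, hC₁⟩ := logHeight_multi_eval_le (k := k) p hp
  obtain ⟨C₂, hC₂⟩ := logHeight_multi_eval_ge L I hI p hp h0
  refine ⟨max C₁ (-C₂), fun u hu hu0 => abs_sub_le_iff.mpr ⟨?_, ?_⟩⟩
  · have := hC₁ u hu0
    have h2 := le_max_left C₁ (-C₂)
    linarith
  · have := hC₂ u hu hu0
    have h2 := le_max_right C₁ (-C₂)
    linarith

end Heights

end Fermat.Agent.S17.H740
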