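import Mathlib.RingTheory.MvPolynomial.WeightedHomogeneous
import Mathlib.RingTheory.MvPolynomial.Homogeneous
import Mathlib.Algebra.MvPolynomial.Rename

/-!
# Segre substitution and lifting of multihomogeneous polynomials

Slots `a : α` (finitely many), slot `a` has variables `ι a`.  A polynomial in the variables
`Σ a, ι a` is *multihomogeneous of multidegree `m : α → ℕ`* if every monomial has degree `m a` in the
variables of slot `a` (`IsMultiHom`, a weighted homogeneity with weights in `α → ℕ`).

The *Segre substitution* sends the Segre variable `Z_f`, `f : (a : α) → ι a`, to `∏ a, X ⟨a, f a⟩`.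
Main result: every multihomogeneous polynomial of multidegree `(N, …, N)` is the Segre
substitution of a homogeneous polynomial of degree `N` in the Segre variables
(`exists_segre_lift`).

Mathlib-only.  Part of the heights tower of row S17 (leaf SEGRE).
-/

set_option autoImplicit false

noncomputable section

namespace Fermat.Agent.S17.H740

open MvPolynomial

section Defs

variable {k : Type*} [CommSemiring k] {α : Type*} {ι : α → Type*}

/-- The weight (in `α → ℕ`) of the variable `⟨a, j⟩`: the indicator of its slot. -/
def slotW [DecidableEq α] : (Σ a, ι a) → (α → ℕ) := fun s => Pi.single s.1 1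

/-- `p` is multihomogeneous of multidegree `m`: every monomial has degree `m a` in the variables
of slot `a`. -/
def IsMultiHom [DecidableEq α] (p : MvPolynomial (Σ a, ι a) k) (m : α → ℕ) : Prop :=
  IsWeightedHomogeneous (slotW (ι := ι)) p m

/-- The point of the "big" affine space attached to a family of tuples. -/
def sigmaPt {R : Type*} (u : (a : α) → ι a → R) : (Σ a, ι a) → R := fun s => u s.1 s.2

variable [Fintype α]

/-- The Segre point (multiplication table) of a family of tuples. -/
def segrePt {R : Type*} [CommMonoid R] (u : (a : α) → ι a → R) : ((a : α) → ι a) → R :=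
  fun f => ∏ a, u a (f a)

variable (k) in
/-- The Segre substitution `Z_f ↦ ∏ a, X ⟨a, f a⟩`. -/
def segreSubst : MvPolynomial ((a : α) → ι a) k →ₐ[k] MvPolynomial (Σ a, ι a) k :=
  aeval (fun f => ∏ a, X (⟨a, f a⟩ : Σ a, ι a))

@[simp]
theorem segreSubst_X (f : (a : α) → ι a) :
    segreSubst k (X f) = ∏ a, X (⟨a, f a⟩ : Σ a, ι a) := by
  simp [segreSubst]

theorem aeval_sigmaPt_segreSubst {R : Type*} [CommSemiring R] [Algebra k R]
    (u : (a : α) → ι a → R) (P : MvPolynomial ((a : α) → ι a) k) :
    aeval (sigmaPt u) (segreSubst k P) = aeval (segrePt u) P := by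
  have h : (aeval (sigmaPt u)).comp (segreSubst k) =
      (aeval (segrePt u) : MvPolynomial ((a : α) → ι a) k →ₐ[k] R) := by
    apply MvPolynomial.algHom_ext
    intro f
    simp [segrePt, sigmaPt]
  exact congrArg (fun φ => φ P) h

end Defs

section Weight

variable {α : Type*} [DecidableEq α] {ι : α → Type*}

theorem weight_slotW_apply (d : (Σ a, ι a) →₀ ℕ) (a : α) :
    Finsupp.weight (slotW (ι := ι)) d a = ∑ s ∈ d.support, if s.1 = a then d s else 0 := by
  classical
  rw [Finsupp.weight_apply, Finsupp.sum, Finset.sum_apply]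
  refine Finset.sum_congr rfl fun s _ => ?_
  simp only [slotW, Pi.smul_apply, smul_eq_mul, Pi.single_apply]
  split_ifs with h1 h2 h2
  · simp
  · exact absurd h1.symm h2
  · exact absurd h2.symm h1
  · simp

theorem le_weight_slotW (d : (Σ a, ι a) →₀ ℕ) (s : Σ a, ι a) :
    d s ≤ Finsupp.weight (slotW (ι := ι)) d s.1 := by
  classical
  rw [weight_slotW_apply]
  by_cases hs : s ∈ d.support
  · calc d s = (if s.1 = s.1 then d s else 0) := by simp
      _ ≤ _ := Finset.single_le_sum (f := fun t => if t.1 = s.1 then d t else 0)
          (fun _ _ => Nat.zero_le _) hs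
  · simp only [Finsupp.mem_support_iff, not_not] at hs
    simp [hs]

theorem exists_pos_of_weight_slotW_pos (d : (Σ a, ι a) →₀ ℕ) (a : α)
    (h : 0 < Finsupp.weight (slotW (ι := ι)) d a) : ∃ j : ι a, d ⟨a, j⟩ ≠ 0 := by
  classical
  rw [weight_slotW_apply] at h
  obtain ⟨s, hs, hpos⟩ := Finset.exists_ne_zero_of_sum_ne_zero h.ne'
  by_cases hsa : s.1 = a
  · subst hsa
    refine ⟨s.2, ?_⟩
    simpa using hpos
  · simp [hsa] at hpos

end Weight

section Lift

variable {k : Type*} [CommSemiring k] {α : Type*} [Fintype α] [DecidableEq α] {ι : α → Type*}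

/-- The exponent vector of the monomial `∏ a, X ⟨a, j a⟩`. -/
def transversal (j : (a : α) → ι a) : (Σ a, ι a) →₀ ℕ :=
  ∑ a, Finsupp.single (⟨a, j a⟩ : Σ a, ι a) 1

omit [DecidableEq α] in
theorem monomial_transversal (j : (a : α) → ι a) :
    (monomial (transversal j) (1 : k)) = ∏ a, X (⟨a, j a⟩ : Σ a, ι a) := by
  classical
  unfold transversal
  rw [MvPolynomial.monomial_sum_one]
  rfl

theorem weight_transversal (j : (a : α) → ι a) :
    Finsupp.weight (slotW (ι := ι)) (transversal j) = fun _ => 1 := by
  classical
  unfold transversal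
  rw [map_sum]
  funext b
  simp [Finsupp.weight_single, slotW, Finset.sum_apply, Pi.single_apply]

theorem transversal_le (d : (Σ a, ι a) →₀ ℕ) (j : (a : α) → ι a)
    (hj : ∀ a, d ⟨a, j a⟩ ≠ 0) : transversal j ≤ d := by
  classical
  intro s
  unfold transversal
  rw [Finsupp.finsetSum_apply]
  have : ∀ a ∈ (Finset.univ : Finset α),
      (Finsupp.single (⟨a, j a⟩ : Σ a, ι a) 1) s = if a = s.1 ∧ j s.1 = s.2 then 1 else 0 := by
    intro a _
    rw [Finsupp.single_apply]
    by_cases h : (⟨a, j a⟩ : Σ a, ι a) = s
    · subst h
      simp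
    · rw [if_neg h, if_neg]
      rintro ⟨rfl, h2⟩
      exact h (by cases s; simp_all)
  rw [Finset.sum_congr rfl this]
  by_cases h2 : j s.1 = s.2
  · simp only [h2, and_true]
    rw [Finset.sum_ite_eq' Finset.univ s.1 (fun _ => 1)]
    simp only [Finset.mem_univ, if_true]
    have := hj s.1
    rw [h2] at this
    exact Nat.one_le_iff_ne_zero.mpr (by cases s; simpa using this)
  · simp [h2]

/-- Every monomial whose degree in each slot is `N` is the Segre substitution of a monomial of
degree `N`. -/
theorem exists_lift_monomial (N : ℕ) : ∀ d : (Σ a, ι a) →₀ ℕ,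
    Finsupp.weight (slotW (ι := ι)) d = (fun _ => N) →
    ∃ e : ((a : α) → ι a) →₀ ℕ, e.degree = N ∧
      segreSubst k (monomial e (1 : k)) = monomial d 1 := by
  classical
  induction N with
  | zero =>
    intro d hd
    have hd0 : d = 0 := by
      ext s
      have := le_weight_slotW d s
      rw [hd] at this
      simpa using this
    subst hd0
    exact ⟨0, by simp, by simp⟩
  | succ N ih =>
    intro d hd
    have hex : ∀ a, ∃ j : ι a, d ⟨a, j⟩ ≠ 0 := fun a =>
      exists_pos_of_weight_slotW_pos d a (by rw [hd]; exact Nat.succ_pos N)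
    choose j hj using hex
    have hle := transversal_le d j hj
    obtain ⟨d', hd'⟩ : ∃ d', d = d' + transversal j := ⟨d - transversal j, by
      rw [tsub_add_cancel_of_le hle]⟩
    have hw' : Finsupp.weight (slotW (ι := ι)) d' = fun _ => N := by
      have h1 := hd
      rw [hd', map_add, weight_transversal] at h1
      funext a
      have := congrFun h1 a
      simp only [Pi.add_apply] at this
      omega
    obtain ⟨e', he', hs'⟩ := ih d' hw'
    refine ⟨e' + Finsupp.single j 1, ?_, ?_⟩
    · rw [map_add, he']
      simp [Finsupp.degree_single]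
    · have h2 : (monomial (e' + Finsupp.single j 1) (1 : k)) = monomial e' 1 * X j := by
        rw [X, monomial_mul, mul_one]
      rw [h2, map_mul, hs', segreSubst_X, ← monomial_transversal (k := k), monomial_mul, mul_one,
        ← hd']

/-- **Segre lift.**  A multihomogeneous polynomial of multidegree `(N, …, N)` is the Segre
substitution of a homogeneous polynomial of degree `N` in the Segre variables. -/
theorem exists_segre_lift {N : ℕ} {p : MvPolynomial (Σ a, ι a) k}
    (hp : IsMultiHom p (fun _ => N)) :
    ∃ P : MvPolynomial ((a : α) → ι a) k, P.IsHomogeneous N ∧ segreSubst k P = p := by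
  classical
  have hex : ∀ d : (Σ a, ι a) →₀ ℕ, ∃ e : ((a : α) → ι a) →₀ ℕ,
      d ∈ p.support → e.degree = N ∧ segreSubst k (monomial e (1 : k)) = monomial d 1 := by
    intro d
    by_cases hd : d ∈ p.support
    · obtain ⟨e, he⟩ := exists_lift_monomial (k := k) N d (hp (by simpa using hd))
      exact ⟨e, fun _ => he⟩
    · exact ⟨0, fun h => absurd h hd⟩
  choose e he using hex
  refine ⟨∑ d ∈ p.support, C (coeff d p) * monomial (e d) 1, ?_, ?_⟩
  · refine IsHomogeneous.sum _ _ _ fun d hd => ?_
    have : (C (coeff d p) * monomial (e d) (1 : k)) = monomial (e d) (coeff d p) := by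
      rw [C_mul_monomial, mul_one]
    rw [this]
    exact isHomogeneous_monomial _ (he d hd).1
  · rw [map_sum]
    conv_rhs => rw [← support_sum_monomial_coeff p]
    refine Finset.sum_congr rfl fun d hd => ?_
    rw [map_mul, (he d hd).2]
    have hC : segreSubst (α := α) (ι := ι) k (C (coeff d p)) = C (coeff d p) := by
      simp [segreSubst]
    rw [hC, C_mul_monomial, mul_one]

end Lift

end Fermat.Agent.S17.H740
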