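import Fermat.Agent.S17.H500.NullCert
import Fermat.Agent.S17.H740.SegreLift

/-!
# The Segre cone of a product of cones

For homogeneous ideals `I a ⊆ k[X_j : j ∈ ι a]` (one per slot `a : α`) and an algebraically closed
(or just infinite) extension `L` of `k`, `segreIdeal L I` is the ideal of all polynomials in the
Segre variables that vanish at every Segre point `segrePt u`, `u a` in the cone of `I a`.

* `homIdeal_segreIdeal` : it is a homogeneous ideal;
* `exists_eq_segrePt`   : every nonzero `L`-point of its zero set is a Segre point `segrePt u` with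
  every `u a` a nonzero point of the cone of `I a`.

Mathlib + `H500.NullCert` only.  Leaf SEGRE of the heights tower of row S17.
-/

set_option autoImplicit false

noncomputable section

namespace Fermat.Agent.S17.H740

open MvPolynomial
open Fermat.Agent.S17.H500 (HomIdeal)

section Smul

variable {σ R A : Type*} [CommSemiring R] [CommSemiring A] [Algebra R A]

theorem aeval_smul_of_isHomogeneous {f : MvPolynomial σ R} {n : ℕ} (hf : f.IsHomogeneous n)
    (t : A) (v : σ → A) : aeval (t • v) f = t ^ n * aeval v f := by
  classical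
  conv_lhs => rw [← f.support_sum_monomial_coeff]
  conv_rhs => rw [← f.support_sum_monomial_coeff]
  rw [map_sum, map_sum, Finset.mul_sum]
  refine Finset.sum_congr rfl fun d hd => ?_
  rw [aeval_monomial, aeval_monomial]
  have hdeg : n = ∑ i ∈ d.support, d i := hf.degree_eq_sum_deg_support hd
  have : (d.prod fun i e => (t • v) i ^ e) = t ^ n * d.prod fun i e => v i ^ e := by
    simp only [Finsupp.prod, Pi.smul_apply, smul_eq_mul, mul_pow, Finset.prod_mul_distrib,
      Finset.prod_pow_eq_pow_sum, ← hdeg]
  rw [this]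
  ring

theorem aeval_smul_eq_sum (f : MvPolynomial σ R) (t : A) (v : σ → A) :
    aeval (t • v) f =
      ∑ n ∈ Finset.range (f.totalDegree + 1), t ^ n * aeval v (homogeneousComponent n f) := by
  conv_lhs => rw [← sum_homogeneousComponent f]
  rw [map_sum]
  exact Finset.sum_congr rfl fun n _ =>
    aeval_smul_of_isHomogeneous (homogeneousComponent_isHomogeneous n f) t v

end Smul

variable {k : Type*} [Field k] {α : Type*} [Fintype α] {ι : α → Type*}
variable (L : Type*) [Field L] [Algebra k L]

/-- `u` is a point of the product of the cones of the ideals `I a`. -/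
def InCones (I : ∀ a, Ideal (MvPolynomial (ι a) k)) (u : (a : α) → ι a → L) : Prop :=
  ∀ a, ∀ f ∈ I a, aeval (u a) f = 0

/-- The vanishing ideal of the Segre image of the product of the cones. -/
def segreIdeal (I : ∀ a, Ideal (MvPolynomial (ι a) k)) :
    Ideal (MvPolynomial ((a : α) → ι a) k) where
  carrier := {P | ∀ u : (a : α) → ι a → L, InCones L I u → aeval (segrePt u) P = 0}
  add_mem' := by
    intro P Q hP hQ u hu
    rw [map_add, hP u hu, hQ u hu, add_zero]
  zero_mem' := by
    intro u _
    exact map_zero _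
  smul_mem' := by
    intro c P hP u hu
    rw [smul_eq_mul, map_mul, hP u hu, mul_zero]

variable {L}

theorem mem_segreIdeal {I : ∀ a, Ideal (MvPolynomial (ι a) k)}
    {P : MvPolynomial ((a : α) → ι a) k} :
    P ∈ segreIdeal L I ↔ ∀ u : (a : α) → ι a → L, InCones L I u → aeval (segrePt u) P = 0 :=
  Iff.rfl

omit [Fintype α] in
theorem inCones_update_smul [DecidableEq α] {I : ∀ a, Ideal (MvPolynomial (ι a) k)}
    (hI : ∀ a, HomIdeal (I a)) {u : (a : α) → ι a → L} (hu : InCones L I u) (a₀ : α) (t : L) :
    InCones L I (Function.update u a₀ (t • u a₀)) := by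
  intro a f hf
  by_cases h : a = a₀
  · subst h
    rw [Function.update_self, aeval_smul_eq_sum]
    refine Finset.sum_eq_zero fun n _ => ?_
    rw [hu a _ (hI a f hf n), mul_zero]
  · rw [Function.update_of_ne h]
    exact hu a f hf

theorem segrePt_update_smul [DecidableEq α] (u : (a : α) → ι a → L) (a₀ : α) (t : L) :
    segrePt (Function.update u a₀ (t • u a₀)) = t • segrePt u := by
  funext f
  simp only [segrePt, Pi.smul_apply, smul_eq_mul]
  rw [← Finset.mul_prod_erase Finset.univ _ (Finset.mem_univ a₀),
    ← Finset.mul_prod_erase Finset.univ (fun a => u a (f a)) (Finset.mem_univ a₀)]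
  rw [Function.update_self, Pi.smul_apply, smul_eq_mul, mul_assoc]
  congr 2
  refine Finset.prod_congr rfl fun a ha => ?_
  rw [Function.update_of_ne (Finset.ne_of_mem_erase ha)]

/-- The Segre ideal is homogeneous. -/
theorem homIdeal_segreIdeal [Nonempty α] [Infinite L] {I : ∀ a, Ideal (MvPolynomial (ι a) k)}
    (hI : ∀ a, HomIdeal (I a)) : HomIdeal (segreIdeal L I) := by
  classical
  intro P hP n u hu
  obtain ⟨a₀⟩ := ‹Nonempty α›
  -- the polynomial `∑ t^m P_m(z)` vanishes identically
  set z := segrePt u with hz
  set q : Polynomial L := ∑ m ∈ Finset.range (P.totalDegree + 1),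
    Polynomial.C (aeval z (homogeneousComponent m P)) * Polynomial.X ^ m with hq
  have hq0 : q = 0 := by
    apply Polynomial.funext
    intro t
    have h1 := hP _ (inCones_update_smul hI hu a₀ t)
    rw [segrePt_update_smul, aeval_smul_eq_sum] at h1
    rw [hq, Polynomial.eval_finsetSum, Polynomial.eval_zero, ← h1]
    refine Finset.sum_congr rfl fun m _ => ?_
    rw [Polynomial.eval_mul, Polynomial.eval_C, Polynomial.eval_pow, Polynomial.eval_X, mul_comm]
  by_cases hn : n ∈ Finset.range (P.totalDegree + 1)
  · have := congrArg (fun r => Polynomial.coeff r n) hq0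
    simp only [hq, Polynomial.finsetSum_coeff, Polynomial.coeff_C_mul, Polynomial.coeff_X_pow,
      Polynomial.coeff_zero] at this
    rw [Finset.sum_eq_single n] at this
    · simpa using this
    · intro m _ hm
      simp [Ne.symm hm]
    · intro h
      exact absurd hn h
  · have : homogeneousComponent n P = 0 := by
      apply homogeneousComponent_eq_zero
      simp only [Finset.mem_range, not_lt] at hn
      omega
    rw [this, map_zero]

/-! ### Points of the zero set are Segre points -/

section RankOne

variable [DecidableEq α]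

theorem swap_mem_segreIdeal (I : ∀ a, Ideal (MvPolynomial (ι a) k)) (f g : (a : α) → ι a)
    (a : α) :
    (X f * X g - X (Function.update f a (g a)) * X (Function.update g a (f a)) :
      MvPolynomial ((a : α) → ι a) k) ∈ segreIdeal L I := by
  intro u _
  simp only [map_sub, map_mul, aeval_X, segrePt]
  rw [sub_eq_zero, ← Finset.prod_mul_distrib, ← Finset.prod_mul_distrib]
  refine Finset.prod_congr rfl fun b _ => ?_
  by_cases h : b = a
  · subst h
    simp [mul_comm]
  · simp [Function.update_of_ne h]

variable {I : ∀ a, Ideal (MvPolynomial (ι a) k)} {z : ((a : α) → ι a) → L}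

theorem swap_eq (hz : ∀ P ∈ segreIdeal L I, aeval z P = 0) (f g : (a : α) → ι a) (a : α) :
    z f * z g = z (Function.update f a (g a)) * z (Function.update g a (f a)) := by
  have := hz _ (swap_mem_segreIdeal (L := L) I f g a)
  simpa [sub_eq_zero] using this

/-- Auxiliary: replace `f₀` by `f` on the slots in `s`. -/
def mixFun (f₀ f : (a : α) → ι a) (s : Finset α) : (a : α) → ι a :=
  fun a => if a ∈ s then f a else f₀ a

omit [Fintype α] in
theorem mixFun_insert (f₀ f : (a : α) → ι a) {s : Finset α} {a : α} (ha : a ∉ s) :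
    Function.update (mixFun f₀ f (insert a s)) a (f₀ a) = mixFun f₀ f s := by
  funext b
  by_cases h : b = a
  · subst h
    simp [mixFun, ha]
  · simp [mixFun, h]

theorem mix_eq (hz : ∀ P ∈ segreIdeal L I, aeval z P = 0) (f₀ f : (a : α) → ι a)
    (s : Finset α) :
    z (mixFun f₀ f s) * z f₀ ^ s.card = z f₀ * ∏ a ∈ s, z (Function.update f₀ a (f a)) := by
  induction s using Finset.induction_on with
  | empty =>
    have : mixFun f₀ f ∅ = f₀ := by funext a; simp [mixFun]
    simp [this]
  | insert a s ha ih =>
    have h1 := swap_eq hz (mixFun f₀ f (insert a s)) f₀ a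
    rw [mixFun_insert f₀ f ha] at h1
    have h2 : mixFun f₀ f (insert a s) a = f a := by simp [mixFun]
    rw [h2] at h1
    rw [Finset.card_insert_of_notMem ha, Finset.prod_insert ha, pow_succ]
    calc z (mixFun f₀ f (insert a s)) * (z f₀ ^ s.card * z f₀)
        = (z (mixFun f₀ f (insert a s)) * z f₀) * z f₀ ^ s.card := by ring
      _ = (z (mixFun f₀ f s) * z f₀ ^ s.card) * z (Function.update f₀ a (f a)) := by
          rw [h1]; ring
      _ = _ := by rw [ih]; ring

/-- A nonzero point of the zero set of the Segre ideal is a Segre point (rank one). -/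
theorem exists_segrePt_eq [Nonempty α] (hz : ∀ P ∈ segreIdeal L I, aeval z P = 0)
    (hz0 : z ≠ 0) : ∃ u : (a : α) → ι a → L, segrePt u = z := by
  obtain ⟨f₀, hf₀⟩ : ∃ f₀, z f₀ ≠ 0 := by
    by_contra h
    exact hz0 (funext fun f => by_contra fun hf => h ⟨f, hf⟩)
  obtain ⟨a₀⟩ := ‹Nonempty α›
  set u : (a : α) → ι a → L := fun a j => z (Function.update f₀ a j) / z f₀ with hu
  refine ⟨Function.update u a₀ (z f₀ • u a₀), ?_⟩
  rw [segrePt_update_smul]
  funext f
  have h := mix_eq hz f₀ f Finset.univ
  have hmix : mixFun f₀ f Finset.univ = f := by funext a; simp [mixFun]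
  rw [hmix] at h
  simp only [Pi.smul_apply, smul_eq_mul, segrePt, hu, Finset.prod_div_distrib,
    Finset.prod_const]
  have hpow : z f₀ ^ (Finset.univ : Finset α).card ≠ 0 := pow_ne_zero _ hf₀
  rw [← mul_div_assoc, ← h, mul_div_assoc, div_self hpow, mul_one]

end RankOne

/-! ### Slot membership -/

section Slot

variable [DecidableEq α]

omit [Fintype α] in
theorem weight_slotW_mapDomain (a : α) (e : ι a →₀ ℕ) :
    Finsupp.weight (slotW (ι := ι)) (e.mapDomain (Sigma.mk a)) = Pi.single a e.degree := by
  classical
  rw [Finsupp.weight_apply, Finsupp.sum_mapDomain_index (by simp) (by intros; simp [add_smul])]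
  simp only [slotW, Finsupp.sum, Finsupp.degree_apply]
  rw [← Finset.sum_smul]
  funext b
  by_cases hb : b = a
  · subst hb
    simp
  · simp [hb]

omit [Fintype α] in
theorem isWeightedHomogeneous_rename_sigma (a : α) {g : MvPolynomial (ι a) k} {d : ℕ}
    (hg : g.IsHomogeneous d) :
    IsWeightedHomogeneous (slotW (ι := ι)) (rename (Sigma.mk a) g) (Pi.single a d) := by
  classical
  intro e he
  obtain ⟨e', rfl, he'⟩ := coeff_rename_ne_zero _ _ _ he
  rw [weight_slotW_mapDomain]
  congr 1
  have := hg he'
  rw [← this, Finsupp.degree_eq_weight_one]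
  rfl

theorem isMultiHom_slotPoly (a : α) {g : MvPolynomial (ι a) k} {d : ℕ} (hg : g.IsHomogeneous d)
    (j : (b : α) → ι b) :
    IsMultiHom (rename (Sigma.mk a) g *
      ∏ b ∈ Finset.univ.erase a, (X (⟨b, j b⟩ : Σ b, ι b) : MvPolynomial (Σ b, ι b) k) ^ d)
      (fun _ => d) := by
  classical
  have h1 := isWeightedHomogeneous_rename_sigma (k := k) a hg
  have h2 : IsWeightedHomogeneous (slotW (ι := ι))
      (∏ b ∈ Finset.univ.erase a, (X (⟨b, j b⟩ : Σ b, ι b) : MvPolynomial (Σ b, ι b) k) ^ d)
      (∑ b ∈ Finset.univ.erase a, Pi.single b d) := by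
    refine IsWeightedHomogeneous.prod _ _ _ fun b _ => ?_
    have := (isWeightedHomogeneous_X k (slotW (ι := ι)) (⟨b, j b⟩ : Σ b, ι b)).pow d
    convert this using 1
    funext c
    simp [slotW, Pi.single_apply]
  have h3 := h1.mul h2
  have hsum : (Pi.single a d + ∑ b ∈ Finset.univ.erase a, Pi.single b d : α → ℕ) = fun _ => d := by
    rw [Finset.add_sum_erase Finset.univ (fun b => (Pi.single b d : α → ℕ)) (Finset.mem_univ a)]
    funext c
    simp [Finset.sum_apply, Pi.single_apply]
  unfold IsMultiHom
  rw [← hsum]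
  exact h3

variable {I : ∀ a, Ideal (MvPolynomial (ι a) k)}

/-- If the Segre point of `u` (all `u a ≠ 0`) lies in the zero set of the Segre ideal, then
every `u a` lies in the cone of `I a`. -/
theorem inCones_of_segrePt (hI : ∀ a, HomIdeal (I a)) {u : (a : α) → ι a → L}
    (hu0 : ∀ a, u a ≠ 0) (hz : ∀ P ∈ segreIdeal L I, aeval (segrePt u) P = 0) :
    InCones L I u := by
  classical
  have hex : ∀ b, ∃ j : ι b, u b j ≠ 0 := fun b => by
    by_contra h
    exact hu0 b (funext fun j => by_contra fun hj => h ⟨j, hj⟩)
  choose j hj using hex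
  -- homogeneous elements first
  have key : ∀ a (g : MvPolynomial (ι a) k) (d : ℕ), g ∈ I a → g.IsHomogeneous d →
      aeval (u a) g = 0 := by
    intro a g d hgI hg
    obtain ⟨Q, -, hQ⟩ := exists_segre_lift (isMultiHom_slotPoly (k := k) a hg j)
    have hQJ : Q ∈ segreIdeal L I := by
      intro v hv
      rw [← aeval_sigmaPt_segreSubst, hQ, map_mul, aeval_rename]
      have : (sigmaPt v ∘ Sigma.mk a) = v a := rfl
      rw [this, hv a g hgI, zero_mul]
    have h1 := hz Q hQJ
    rw [← aeval_sigmaPt_segreSubst, hQ, map_mul, aeval_rename] at h1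
    have h2 : (sigmaPt u ∘ Sigma.mk a) = u a := rfl
    rw [h2] at h1
    rcases mul_eq_zero.mp h1 with h | h
    · exact h
    · exfalso
      rw [map_prod] at h
      obtain ⟨b, -, hb⟩ := Finset.prod_eq_zero_iff.mp h
      rw [map_pow, aeval_X] at hb
      exact hj b (eq_zero_of_pow_eq_zero hb)
  intro a f hf
  rw [← sum_homogeneousComponent f, map_sum]
  exact Finset.sum_eq_zero fun n _ =>
    key a _ n (hI a f hf n) (homogeneousComponent_isHomogeneous n f)

end Slot

end Fermat.Agent.S17.H740
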